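import Fermat.Agent.Lib.Newform.H863.GoodEigen
import Fermat.Agent.S49.GoingUp
import Fermat.Prelude.Def_CuspForm_HeckeLocal
import Fermat.Prelude.Def_FLTPrelim_ModularRep

/-!
# RIBET, piece R3b (helper584): Deligne–Serre lifting for weight 2, level `N`, any prime `p`

Let `𝕋 = heckeAlgebra N 2 S` be the Hecke algebra of `S₂(Γ₀(N))` away from a set `S` of primes.

* `exists_eigenform_of_prime` : for every prime ideal `𝔫` of `𝕋` there are a normalised eigenform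
  `f` of level `N` (in the sense of the prelude: eigen for ALL `T_ℓ`, `U_q`), a ring homomorphism
  `χ : 𝕋 → ℤ̄` with `χ (T_ℓ) = a_ℓ(f)` for the good primes `ℓ ∉ S`, and a maximal ideal `𝔪'` of
  `ℤ̄` with `χ(𝔫) ⊆ 𝔪'`.
* `exists_eigenform_of_ringHom` : the same for the kernel of a ring homomorphism `φ : 𝕋 → k` to a
  field of characteristic `p`; then `p ∈ 𝔪'`.
* `exists_eigenform_congr_of_ringHom` : congruence form (the shape of
  `WeierstrassCurve.IsResiduallyModularOfLevel`): if `φ (T_ℓ) = b ℓ` (image of an integer) for the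
  good primes `ℓ ∉ S`, then `a_ℓ(f) - b ℓ ∈ 𝔪'`.

Everything is assembled from landed pieces: S23 (integral structure), S49 (linear algebra,
going up), NEWFORM/H863 (normalisation of a common eigenvector).
-/

set_option autoImplicit false
open CuspForm CongruenceSubgroup ModularFormClass

namespace Fermat.Agent.Lib.Ribet.H584

variable {N : ℕ} [NeZero N] (S : Set ℕ)

/-- Every element of the Hecke algebra (away from `S`) is integral over `ℤ`. -/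
theorem isIntegral_heckeAlgebra (t : heckeAlgebra N 2 S) : IsIntegral ℤ t := by
  have hbij := CuspForm.latticeRestrictHom_bijective N S (Fermat.Agent.S23.result N)
  have h1 : IsIntegral ℤ (CuspForm.latticeRestrictHom N S t) :=
    Algebra.IsIntegral.isIntegral _
  exact (isIntegral_algHom_iff _ hbij.1).mp h1

/-- Going up for prime ideals: a maximal ideal of `ℤ̄` containing the image of a prime ideal
which contains the kernel. -/
theorem exists_maximal_over_prime {A : Type*} [CommRing A] (χ : A →+* integralClosure ℤ ℂ)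
    (𝔫 : Ideal A) [𝔫.IsPrime] (h : RingHom.ker χ ≤ 𝔫) :
    ∃ 𝔪' : Ideal (integralClosure ℤ ℂ), 𝔪'.IsMaximal ∧ ∀ t ∈ 𝔫, χ t ∈ 𝔪' := by
  let _ : Algebra A (integralClosure ℤ ℂ) := χ.toAlgebra
  have hint : Algebra.IsIntegral A (integralClosure ℤ ℂ) :=
    ⟨fun x => (Algebra.IsIntegral.isIntegral (R := ℤ) x).tower_top⟩
  obtain ⟨Q, -, hQ, hQc⟩ := Ideal.exists_ideal_over_prime_of_isIntegral 𝔫 (⊥ : Ideal _)
    (by
      intro t ht
      apply h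
      rw [RingHom.mem_ker]
      have h1 : (algebraMap A (integralClosure ℤ ℂ)) t ∈ (⊥ : Ideal (integralClosure ℤ ℂ)) := ht
      exact Ideal.mem_bot.mp h1)
  obtain ⟨𝔪', h𝔪', hle⟩ := Ideal.exists_le_maximal Q hQ.ne_top
  refine ⟨𝔪', h𝔪', fun t ht => hle ?_⟩
  have : t ∈ Q.comap (algebraMap A (integralClosure ℤ ℂ)) := hQc ▸ ht
  exact this

/-- **Deligne–Serre lifting**, prime-ideal form. -/
theorem exists_eigenform_of_prime (𝔫 : Ideal (heckeAlgebra N 2 S)) [𝔫.IsPrime] :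
    ∃ (f : CuspForm (Gamma0 N) 2) (𝔪' : Ideal (integralClosure ℤ ℂ))
      (χ : heckeAlgebra N 2 S →+* integralClosure ℤ ℂ),
      f.IsNormalizedEigenform ∧ 𝔪'.IsMaximal ∧
      (∀ (ℓ : ℕ) (hℓ : ℓ.Prime) (hℓN : ¬ ℓ ∣ N) (hℓS : ℓ ∉ S),
        ((χ (heckeAlgebra.T hℓ hℓN hℓS) : integralClosure ℤ ℂ) : ℂ) = qCoeff f ℓ) ∧
      (∀ t ∈ 𝔫, χ t ∈ 𝔪') := by
  classical
  have := Fermat.Agent.Lib.Newform.H863.finiteDimensional_cuspForm N
  obtain ⟨g, χ₀, hg, hχ₀, hker⟩ := Fermat.Agent.S49.exists_eigenvector_ker_le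
    (K := ℂ) (V := CuspForm (Gamma0 N) 2)
    ((heckeAlgebra N 2 S).val.toRingHom) Subtype.val_injective 𝔫
  -- the eigencharacter takes values in the integral closure
  have hint : ∀ t, χ₀ t ∈ integralClosure ℤ ℂ := fun t =>
    (isIntegral_heckeAlgebra S t).map χ₀.toIntAlgHom
  let χ : heckeAlgebra N 2 S →+* integralClosure ℤ ℂ :=
    χ₀.codRestrict (integralClosure ℤ ℂ).toSubring hint
  have hχ : ∀ t, ((χ t : integralClosure ℤ ℂ) : ℂ) = χ₀ t := fun t => rfl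
  have hker' : RingHom.ker χ ≤ 𝔫 := by
    intro t ht
    apply hker
    rw [RingHom.mem_ker] at ht ⊢
    rw [← hχ, ht]
    rfl
  obtain ⟨𝔪', h𝔪', hover⟩ := exists_maximal_over_prime χ 𝔫 hker'
  -- normalise
  set lam : ℕ → ℂ := fun ℓ =>
    if h : ℓ.Prime ∧ ¬ ℓ ∣ N ∧ ℓ ∉ S then χ₀ (heckeAlgebra.T h.1 h.2.1 h.2.2) else 0 with hlam
  have heig : ∀ (ℓ : ℕ) (hℓ : ℓ.Prime) (hℓN : ¬ ℓ ∣ N), ℓ ∉ S →
      CuspForm.heckeTLin 2 hℓ hℓN g = lam ℓ • g := by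
    intro ℓ hℓ hℓN hℓS
    have h1 := hχ₀ (heckeAlgebra.T hℓ hℓN hℓS)
    have h2 : lam ℓ = χ₀ (heckeAlgebra.T hℓ hℓN hℓS) := by
      simp only [hlam]
      rw [dif_pos ⟨hℓ, hℓN, hℓS⟩]
    rw [h2, ← h1]
    rfl
  obtain ⟨f, hf, hfl⟩ :=
    Fermat.Agent.Lib.Newform.H863.exists_normalizedEigenform_of_eigenvector S lam g hg heig
  refine ⟨f, 𝔪', χ, hf, h𝔪', fun ℓ hℓ hℓN hℓS => ?_, hover⟩
  rw [hχ, hfl ℓ hℓ hℓN hℓS]
  simp only [hlam]
  rw [dif_pos ⟨hℓ, hℓN, hℓS⟩]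

/-- **Deligne–Serre lifting** for a ring homomorphism of the Hecke algebra to a field of
characteristic `p`. -/
theorem exists_eigenform_of_ringHom {k : Type*} [Field k] (p : ℕ) [CharP k p]
    (φ : heckeAlgebra N 2 S →+* k) :
    ∃ (f : CuspForm (Gamma0 N) 2) (𝔪' : Ideal (integralClosure ℤ ℂ))
      (χ : heckeAlgebra N 2 S →+* integralClosure ℤ ℂ),
      f.IsNormalizedEigenform ∧ 𝔪'.IsMaximal ∧ (p : integralClosure ℤ ℂ) ∈ 𝔪' ∧
      (∀ (ℓ : ℕ) (hℓ : ℓ.Prime) (hℓN : ¬ ℓ ∣ N) (hℓS : ℓ ∉ S),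
        ((χ (heckeAlgebra.T hℓ hℓN hℓS) : integralClosure ℤ ℂ) : ℂ) = qCoeff f ℓ) ∧
      (∀ t, φ t = 0 → χ t ∈ 𝔪') := by
  have hprime : (RingHom.ker φ).IsPrime := RingHom.ker_isPrime φ
  obtain ⟨f, 𝔪', χ, hf, h𝔪', hT, hover⟩ := exists_eigenform_of_prime S (RingHom.ker φ)
  refine ⟨f, 𝔪', χ, hf, h𝔪', ?_, hT, fun t ht => hover t (RingHom.mem_ker.mpr ht)⟩
  have hp : ((p : ℕ) : heckeAlgebra N 2 S) ∈ RingHom.ker φ := by
    rw [RingHom.mem_ker, map_natCast]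
    exact CharP.cast_eq_zero k p
  have := hover _ hp
  rwa [map_natCast] at this

/-- **Deligne–Serre lifting**, congruence form: an eigensystem `b` with values in `ℤ` which is
realised modulo `p` by a character of the Hecke algebra is congruent to the eigensystem of a
normalised eigenform. -/
theorem exists_eigenform_congr_of_ringHom {k : Type*} [Field k] (p : ℕ) [CharP k p]
    (φ : heckeAlgebra N 2 S →+* k) (b : ℕ → ℤ)
    (hb : ∀ (ℓ : ℕ) (hℓ : ℓ.Prime) (hℓN : ¬ ℓ ∣ N) (hℓS : ℓ ∉ S),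
      φ (heckeAlgebra.T hℓ hℓN hℓS) = ((b ℓ : ℤ) : k)) :
    ∃ (f : CuspForm (Gamma0 N) 2) (𝔪' : Ideal (integralClosure ℤ ℂ)),
      f.IsNormalizedEigenform ∧ 𝔪'.IsMaximal ∧ (p : integralClosure ℤ ℂ) ∈ 𝔪' ∧
      ∀ ℓ : ℕ, ℓ.Prime → ¬ ℓ ∣ N → ℓ ∉ S →
        ∃ a : integralClosure ℤ ℂ, (a : ℂ) = qCoeff f ℓ ∧
          a - ((b ℓ : ℤ) : integralClosure ℤ ℂ) ∈ 𝔪' := by
  obtain ⟨f, 𝔪', χ, hf, h𝔪', hp, hT, hover⟩ := exists_eigenform_of_ringHom S p φ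
  refine ⟨f, 𝔪', hf, h𝔪', hp, fun ℓ hℓ hℓN hℓS => ⟨χ (heckeAlgebra.T hℓ hℓN hℓS),
    hT ℓ hℓ hℓN hℓS, ?_⟩⟩
  have h0 : φ (heckeAlgebra.T hℓ hℓN hℓS - ((b ℓ : ℤ) : heckeAlgebra N 2 S)) = 0 := by
    rw [map_sub, hb ℓ hℓ hℓN hℓS, map_intCast, sub_self]
  have := hover _ h0
  rwa [map_sub, map_intCast] at this

/-- The set of primes excluded in `WeierstrassCurve.IsResiduallyModularOfLevel`: `p` and the
bad primes of `W`. -/
def excluded (W : WeierstrassCurve ℤ) (p : ℕ) : Set ℕ :=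
  {ℓ | ℓ = p ∨ ¬ W.IsGoodPrimeFor ℓ}

theorem notMem_excluded {W : WeierstrassCurve ℤ} {p ℓ : ℕ} (hg : W.IsGoodPrimeFor ℓ)
    (hℓp : ℓ ≠ p) : ℓ ∉ excluded W p := by
  rintro (h | h)
  · exact hℓp h
  · exact h hg

/-- **R3b, final shape**: a character of the Hecke algebra of level `N` (away from `p` and the
bad primes of `W`) with values in a field of characteristic `p` which sends `T_ℓ` to `a_ℓ(W)`
makes `W` residually modular of level `N` at `p`. -/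
theorem isResiduallyModularOfLevel_of_ringHom (W : WeierstrassCurve ℤ) {k : Type*} [Field k]
    (p : ℕ) [CharP k p] (φ : heckeAlgebra N 2 (excluded W p) →+* k)
    (hφ : ∀ (ℓ : ℕ) (hℓ : ℓ.Prime) (hℓN : ¬ ℓ ∣ N) (hℓS : ℓ ∉ excluded W p),
      φ (heckeAlgebra.T hℓ hℓN hℓS) = ((W.apOfModel ℓ : ℤ) : k)) :
    W.IsResiduallyModularOfLevel p N := by
  obtain ⟨f, 𝔪', hf, h𝔪', hp, hcong⟩ :=
    exists_eigenform_congr_of_ringHom (excluded W p) p φ (fun ℓ => W.apOfModel ℓ) hφ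
  exact ⟨f, 𝔪', hf, h𝔪', hp, fun ℓ hℓ hg hℓN hℓp =>
    hcong ℓ hℓ hℓN (notMem_excluded hg hℓp)⟩

/-- **R3b, Frey shape**: the same for `FreyPackage.ModularRepOfLevel`. -/
theorem modularRepOfLevel_of_ringHom (P : FreyPackage) (W : WeierstrassCurve ℤ)
    (hW : W.IsIntegralModelOf P.freyCurve) {k : Type*} [Field k] [CharP k P.p]
    (φ : heckeAlgebra N 2 (excluded W P.p) →+* k)
    (hφ : ∀ (ℓ : ℕ) (hℓ : ℓ.Prime) (hℓN : ¬ ℓ ∣ N) (hℓS : ℓ ∉ excluded W P.p),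
      φ (heckeAlgebra.T hℓ hℓN hℓS) = ((W.apOfModel ℓ : ℤ) : k)) :
    P.ModularRepOfLevel N := by
  obtain ⟨f, 𝔪', hf, h𝔪', hp, hcong⟩ :=
    exists_eigenform_congr_of_ringHom (excluded W P.p) P.p φ (fun ℓ => W.apOfModel ℓ) hφ
  exact ⟨f, W, 𝔪', hf, hW, h𝔪', hp, fun ℓ hℓ hg hℓN hℓp =>
    hcong ℓ hℓ hℓN (notMem_excluded hg hℓp)⟩

end Fermat.Agent.Lib.Ribet.H584
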